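import Mathlib.Analysis.Complex.HasPrimitives
import Mathlib.NumberTheory.ModularForms.CongruenceSubgroups
import Mathlib.NumberTheory.ModularForms.Cusps
import Mathlib.NumberTheory.ModularForms.QExpansion
import Fermat.Agent.MF.Form

/-!
# Primitives of weight two cusp forms on the upper half plane

Every translate of a weight two cusp form has a holomorphic primitive tending to zero at `i∞`.
-/

noncomputable section

open UpperHalfPlane hiding I
open Filter Topology Complex Function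
open scoped MatrixGroups ModularForm Manifold Real

namespace Fermat.Agent.Periods

local notation "𝕢" => Function.Periodic.qParam

/-- `F` is a holomorphic primitive of `f` on the upper half plane. -/
def IsPrimitive (f F : ℍ → ℂ) : Prop :=
  ∀ τ : ℍ, HasDerivAt (F ∘ ofComplex) (f τ) ↑τ

theorem eventually_im_pos (τ : ℍ) : ∀ᶠ z in 𝓝 (τ : ℂ), 0 < z.im :=
  isOpen_upperHalfPlaneSet.mem_nhds τ.im_pos

theorem IsPrimitive.add {f g F G : ℍ → ℂ} (hF : IsPrimitive f F) (hG : IsPrimitive g G) :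
    IsPrimitive (f + g) (F + G) :=
  fun τ => (hF τ).add (hG τ)

theorem IsPrimitive.sub {f g F G : ℍ → ℂ} (hF : IsPrimitive f F) (hG : IsPrimitive g G) :
    IsPrimitive (f - g) (F - G) :=
  fun τ => (hF τ).sub (hG τ)

theorem IsPrimitive.const_smul {f F : ℍ → ℂ} (hF : IsPrimitive f F) (a : ℂ) :
    IsPrimitive (a • f) (a • F) :=
  fun τ => (hF τ).const_smul a

theorem IsPrimitive.zero : IsPrimitive 0 0 :=
  fun τ => hasDerivAt_const (τ : ℂ) (0 : ℂ)

theorem IsPrimitive.differentiableOn {f F : ℍ → ℂ} (hF : IsPrimitive f F) :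
    DifferentiableOn ℂ (F ∘ ofComplex) {z | 0 < z.im} :=
  fun z hz => ((hF ⟨z, hz⟩).differentiableAt).differentiableWithinAt

theorem IsPrimitive.mdifferentiable {f F : ℍ → ℂ} (hF : IsPrimitive f F) : MDiff F :=
  mdifferentiable_iff.mpr hF.differentiableOn

/-- A primitive of `0` is constant. -/
theorem IsPrimitive.eq_const {F : ℍ → ℂ} (hF : IsPrimitive 0 F) (z w : ℍ) : F z = F w := by
  have hd : ∀ x ∈ {z : ℂ | 0 < z.im}, deriv (F ∘ ofComplex) x = 0 := fun x hx => (hF ⟨x, hx⟩).deriv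
  have := isOpen_upperHalfPlaneSet.is_const_of_deriv_eq_zero
    (convex_halfSpace_im_gt 0).isPreconnected hF.differentiableOn hd z.im_pos w.im_pos
  simpa using this

/-- Two primitives of the same function differ by a constant. -/
theorem IsPrimitive.sub_eq_sub {f F G : ℍ → ℂ} (hF : IsPrimitive f F) (hG : IsPrimitive f G)
    (z w : ℍ) : F z - G z = F w - G w := by
  have := hF.sub hG
  rw [sub_self] at this
  exact this.eq_const z w

theorem IsPrimitive.eq_of_tendsto {f F G : ℍ → ℂ} (hF : IsPrimitive f F) (hG : IsPrimitive f G)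
    {a : ℂ} (hFa : Tendsto F atImInfty (𝓝 a)) (hGa : Tendsto G atImInfty (𝓝 a)) : F = G := by
  funext z
  have h : Tendsto (fun w => F w - G w) atImInfty (𝓝 (F z - G z)) :=
    tendsto_const_nhds.congr (fun w => hF.sub_eq_sub hG z w)
  have h' := hFa.sub hGa
  rw [sub_self] at h'
  exact sub_eq_zero.mp (tendsto_nhds_unique h h')

/-- Composition of a primitive with the action of `SL(2, ℤ)`. -/
theorem IsPrimitive.comp_smul {f F : ℍ → ℂ} (hF : IsPrimitive f F) (δ : SL(2, ℤ)) :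
    IsPrimitive (f ∣[(2 : ℤ)] δ) (fun z => F (δ • z)) := by
  intro τ
  have hdet : (δ : GL (Fin 2) ℝ).val.det = 1 :=
    (Matrix.SpecialLinearGroup.map (Int.castRingHom ℝ) δ).det_coe
  have hd : (0 : ℝ) < (δ : GL (Fin 2) ℝ).val.det := by rw [hdet]; exact one_pos
  have h1 : HasDerivAt (fun z : ℂ => (↑((δ : GL (Fin 2) ℝ) • ofComplex z) : ℂ))
      ((denom δ τ) ^ 2)⁻¹ τ := by
    have := (hasStrictDerivAt_smul hd τ).hasDerivAt
    rw [hdet, ofReal_one, one_div] at this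
    exact this
  have h2 : HasDerivAt (F ∘ ofComplex) (f (δ • τ))
      ((fun z : ℂ => (↑((δ : GL (Fin 2) ℝ) • ofComplex z) : ℂ)) τ) := by
    simpa [ofComplex_apply, ModularGroup.sl_moeb] using hF (δ • τ)
  have h3 := h2.comp (τ : ℂ) h1
  have e : (f ∣[(2 : ℤ)] δ) τ = f (δ • τ) * ((denom δ τ) ^ 2)⁻¹ := by
    rw [ModularForm.SL_slash_apply, zpow_neg]; rfl
  rw [e]
  refine h3.congr_of_eventuallyEq (Eventually.of_forall fun z => ?_)
  simp [ModularGroup.sl_moeb, ofComplex_apply]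

/-- A periodic holomorphic function vanishing at `i∞` has a primitive vanishing at `i∞`. -/
theorem exists_primitive_of_periodic {g : ℍ → ℂ} {h : ℝ} (hh : 0 < h)
    (hper : Periodic (g ∘ ofComplex) h) (hg : MDiff g) (h0 : IsZeroAtImInfty g) :
    ∃ P : ℍ → ℂ, IsPrimitive g P ∧ Tendsto P atImInfty (𝓝 0) := by
  set c := UpperHalfPlane.cuspFunction h g with hc
  have hcd : DifferentiableOn ℂ c (Metric.ball 0 1) :=
    differentiableOn_cuspFunction_ball hh hper hg h0.isBoundedAtImInfty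
  have hc0 : c 0 = 0 := by
    rw [hc, cuspFunction_apply_zero hh
      (analyticAt_cuspFunction_zero hh hper hg h0.isBoundedAtImInfty) hper]
    exact h0.valueAtInfty_eq_zero
  have hdd : DifferentiableOn ℂ (fun q => (h : ℂ) / (2 * π * I) * dslope c 0 q)
      (Metric.ball 0 1) :=
    ((Complex.differentiableOn_dslope (Metric.ball_mem_nhds (0 : ℂ) one_pos)).mpr hcd).const_mul _
  obtain ⟨G, hG0, hG⟩ := hdd.isExactOn_ball.with_val_at 0 0
  refine ⟨fun τ => G (𝕢 h τ), fun τ => ?_, ?_⟩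
  · have hq : 𝕢 h (τ : ℂ) ∈ Metric.ball (0 : ℂ) 1 := by
      simpa using Periodic.norm_qParam_lt_one hh τ.im_pos
    have hqd : HasDerivAt (fun z : ℂ => 𝕢 h z) (𝕢 h τ * (2 * π * I / h)) τ := by
      simpa [Periodic.qParam, mul_comm, mul_div_assoc] using
        ((((hasDerivAt_id (τ : ℂ)).const_mul (2 * π * I : ℂ)).div_const (h : ℂ)).cexp)
    have h3 := (hG _ hq).comp (τ : ℂ) hqd
    have e : (h : ℂ) / (2 * π * I) * dslope c 0 (𝕢 h τ) * (𝕢 h τ * (2 * π * I / h)) = g τ := by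
      have h4 := sub_smul_dslope c 0 (𝕢 h (τ : ℂ))
      have h5 : c (𝕢 h (τ : ℂ)) = g τ := eq_cuspFunction τ hh.ne' hper
      rw [sub_zero, hc0, sub_zero, smul_eq_mul, h5] at h4
      have : (h : ℂ) ≠ 0 := by exact_mod_cast hh.ne'
      have := Complex.two_pi_I_ne_zero
      rw [← h4]
      field_simp
    rw [e] at h3
    refine h3.congr_of_eventuallyEq ?_
    filter_upwards [eventually_im_pos τ] with z hz
    simp [ofComplex_apply_of_im_pos hz]
  · have hG' : ContinuousAt G 0 := (hG 0 (Metric.mem_ball_self one_pos)).continuousAt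
    have := hG'.tendsto
    rw [hG0] at this
    exact this.comp (qParam_tendsto_atImInfty hh)

theorem slash_T_zpow (g : ℍ → ℂ) (k : ℤ) (m : ℤ) (τ : ℍ) :
    (g ∣[k] (ModularGroup.T ^ m)) τ = g ((m : ℝ) +ᵥ τ) := by
  have hden : denom (((ModularGroup.T ^ m : SL(2, ℤ))) : GL (Fin 2) ℝ) (τ : ℂ) = 1 := by
    rw [ModularGroup.denom_apply, ModularGroup.coe_T_zpow]; simp
  rw [ModularForm.SL_slash_apply, modular_T_zpow_smul, hden, one_zpow, mul_one]

section Gamma0

open CongruenceSubgroup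

variable {N : ℕ}

theorem slash_Gamma0_eq {k : ℤ} (f : CuspForm (Gamma0 N) k) {γ : SL(2, ℤ)} (hγ : γ ∈ Gamma0 N) :
    (⇑f) ∣[k] γ = ⇑f :=
  SlashInvariantFormClass.slash_action_eq f _ ⟨γ, hγ, rfl⟩

theorem conj_T_zpow_mem_Gamma0 (δ : SL(2, ℤ)) {m : ℤ} (hm : (N : ℤ) ∣ m) :
    δ * ModularGroup.T ^ m * δ⁻¹ ∈ Gamma0 N := by
  have h : δ * ModularGroup.T ^ m * δ⁻¹ ∈ CongruenceSubgroup.Gamma N :=
    (Gamma_normal N).conj_mem _ (ModularGroup_T_pow_mem_Gamma N m hm) δ
  exact Gamma0_mem.mpr (Gamma_mem.mp h).2.2.1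

theorem slash_periodic {k : ℤ} (f : CuspForm (Gamma0 N) k) (δ : SL(2, ℤ)) :
    Periodic (((⇑f) ∣[k] δ) ∘ ofComplex) (N : ℝ) :=
  MF.periodic_comp_ofComplex fun τ => by
    have key : (((⇑f) ∣[k] δ) ∣[k] (ModularGroup.T ^ (N : ℤ))) τ = ((⇑f) ∣[k] δ) τ := by
      rw [← SlashAction.slash_mul]
      have : δ * ModularGroup.T ^ (N : ℤ) = (δ * ModularGroup.T ^ (N : ℤ) * δ⁻¹) * δ := by group
      rw [this, SlashAction.slash_mul, slash_Gamma0_eq f (conj_T_zpow_mem_Gamma0 δ dvd_rfl)]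
    rw [slash_T_zpow] at key
    exact_mod_cast key

variable [NeZero N]

theorem slash_isZeroAtImInfty {k : ℤ} (f : CuspForm (Gamma0 N) k) (δ : SL(2, ℤ)) :
    IsZeroAtImInfty ((⇑f) ∣[k] δ) := by
  have hc : IsCusp ((Matrix.SpecialLinearGroup.mapGL ℝ δ) • OnePoint.infty)
      (Gamma0 N : Subgroup (GL (Fin 2) ℝ)) :=
    (Subgroup.IsArithmetic.isCusp_iff_isCusp_SL2Z _).mpr (isCusp_SL2Z_iff'.mpr ⟨δ, rfl⟩)
  exact (OnePoint.isZeroAt_iff rfl).mp (CuspFormClass.zero_at_cusps f hc)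

theorem exists_primitive_slash (f : CuspForm (Gamma0 N) 2) (δ : SL(2, ℤ)) :
    ∃ P : ℍ → ℂ, IsPrimitive ((⇑f) ∣[(2 : ℤ)] δ) P ∧ Tendsto P atImInfty (𝓝 0) :=
  exists_primitive_of_periodic (Nat.cast_pos.mpr (NeZero.pos N)) (slash_periodic f δ)
    ((CuspFormClass.holo f).slash 2 (δ : GL (Fin 2) ℝ)) (slash_isZeroAtImInfty f δ)

end Gamma0

end Fermat.Agent.Periods
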