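import Fermat.Prelude.Def_ModularCurve_PeriodHomPair
import Fermat.Agent.Periods.Primitive

/-!
# The period map of a weight two cusp form: existence, linearity, parabolic elements

The periods of the normalised primitive form a homomorphism on `Γ₀(N)` killing parabolic
elements, linear in the form.
-/

noncomputable section

open UpperHalfPlane hiding I
open Filter Topology Complex Function CongruenceSubgroup ModularCurve ModularCurve.Period
open scoped MatrixGroups ModularForm Manifold

namespace Fermat.Agent.Periods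

variable {N : ℕ}

theorem isEquivariantPrimitive_of_isPrimitive (f : CuspForm (Gamma0 N) 2) {F : ℍ → ℂ}
    (hF : IsPrimitive f F) : IsEquivariantPrimitive (Gamma0 N) F := fun γ =>
  ⟨F ((γ : SL(2, ℤ)) • UpperHalfPlane.I) - F UpperHalfPlane.I, fun z => by
    have h := hF.comp_smul (γ : SL(2, ℤ))
    rw [slash_Gamma0_eq f γ.2] at h
    exact h.sub_eq_sub hF z UpperHalfPlane.I⟩

variable [NeZero N]

theorem exists_hasEquivariantPrimitive (f : CuspForm (Gamma0 N) 2) :
    ∃ F : ℍ → ℂ, HasEquivariantPrimitive N f F := by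
  obtain ⟨F, hF, hF0⟩ := exists_primitive_slash f 1
  rw [SlashAction.slash_one] at hF
  refine ⟨F, hF, hF0, isEquivariantPrimitive_of_isPrimitive f hF, fun δ => ?_⟩
  obtain ⟨P, hP, hP0⟩ := exists_primitive_slash f δ
  refine ⟨(F (δ • UpperHalfPlane.I) - P UpperHalfPlane.I), ?_⟩
  have := (tendsto_const_nhds (x := F (δ • UpperHalfPlane.I) - P UpperHalfPlane.I)).add hP0
  rw [add_zero] at this
  refine this.congr fun w => ?_
  linear_combination -((hF.comp_smul δ).sub_eq_sub hP w UpperHalfPlane.I)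

/-- The normalised primitive of a cusp form of weight two. -/
def primitive (f : CuspForm (Gamma0 N) 2) : ℍ → ℂ :=
  (exists_hasEquivariantPrimitive f).choose

theorem primitive_spec (f : CuspForm (Gamma0 N) 2) :
    HasEquivariantPrimitive N f (primitive f) :=
  (exists_hasEquivariantPrimitive f).choose_spec

theorem isPrimitive_primitive (f : CuspForm (Gamma0 N) 2) : IsPrimitive f (primitive f) :=
  (primitive_spec f).1

theorem tendsto_primitive_smul (f : CuspForm (Gamma0 N) 2) (δ : SL(2, ℤ)) :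
    ∃ L : ℂ, Tendsto (fun w : ℍ => primitive f (δ • w)) atImInfty (𝓝 L) :=
  (primitive_spec f).2.2.2 δ

/-- The period is the increment of any primitive. -/
theorem periodMap_eq_sub (f : CuspForm (Gamma0 N) 2) {F : ℍ → ℂ} (hF : IsPrimitive f F)
    (γ : Gamma0 N) (z : ℍ) :
    periodMap N f (Additive.ofMul γ) = F ((γ : SL(2, ℤ)) • z) - F z := by
  obtain ⟨F₀, h₀, h⟩ := periodMap_def N f (primitive_spec f)
  rw [h, IsEquivariantPrimitive.periodHom_apply]
  have h1 := h₀.2.2.1.sub_eq_period γ z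
  have h2 : IsPrimitive f F₀ := h₀.1
  linear_combination h2.sub_eq_sub hF ((γ : SL(2, ℤ)) • z) z - h1

theorem periodMap_add (f g : CuspForm (Gamma0 N) 2) :
    periodMap N (f + g) = periodMap N f + periodMap N g := by
  refine AddMonoidHom.ext fun γ => ?_
  obtain ⟨γ, rfl⟩ := Additive.ofMul.surjective γ
  have h : IsPrimitive ⇑(f + g) (primitive f + primitive g) :=
    (isPrimitive_primitive f).add (isPrimitive_primitive g)
  rw [periodMap_eq_sub _ h γ UpperHalfPlane.I, AddMonoidHom.add_apply,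
    periodMap_eq_sub f (isPrimitive_primitive f) γ UpperHalfPlane.I,
    periodMap_eq_sub g (isPrimitive_primitive g) γ UpperHalfPlane.I, Pi.add_apply, Pi.add_apply]
  ring

theorem periodMap_smul (a : ℂ) (f : CuspForm (Gamma0 N) 2) :
    periodMap N (a • f) = a • periodMap N f := by
  refine AddMonoidHom.ext fun γ => ?_
  obtain ⟨γ, rfl⟩ := Additive.ofMul.surjective γ
  have h : IsPrimitive ⇑(a • f) (a • primitive f) :=
    (isPrimitive_primitive f).const_smul a
  rw [periodMap_eq_sub _ h γ UpperHalfPlane.I, AddMonoidHom.smul_apply,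
    periodMap_eq_sub f (isPrimitive_primitive f) γ UpperHalfPlane.I, Pi.smul_apply, Pi.smul_apply,
    smul_eq_mul, smul_eq_mul, smul_eq_mul]
  ring

variable (N) in
/-- The period map as a `ℂ`-linear map. -/
def periodMapLin : CuspForm (Gamma0 N) 2 →ₗ[ℂ] (Additive (Gamma0 N) →+ ℂ) where
  toFun := periodMap N
  map_add' := periodMap_add
  map_smul' := periodMap_smul

@[simp]
theorem periodMapLin_apply (f : CuspForm (Gamma0 N) 2) : periodMapLin N f = periodMap N f := rfl

theorem periodMap_sub (f g : CuspForm (Gamma0 N) 2) :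
    periodMap N (f - g) = periodMap N f - periodMap N g :=
  (periodMapLin N).map_sub f g

theorem periodMap_zero : periodMap N (0 : CuspForm (Gamma0 N) 2) = 0 :=
  (periodMapLin N).map_zero

variable (N) in
/-- A linear period map exists. -/
theorem existsPeriodMapLinear : ExistsPeriodMapLinear N :=
  ⟨periodMapLin N, fun _ => rfl⟩

theorem periodHomPair_apply (f g : CuspForm (Gamma0 N) 2) :
    periodHomPair N (f, g) = (periodMap N f + charInvolution N ℂ ℂ (periodMap N f))
      + (periodMap N g - charInvolution N ℂ ℂ (periodMap N g)) := by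
  obtain ⟨pml, hpml, h⟩ := periodHomPair_def N (existsPeriodMapLinear N)
  simp [h, hpml]

omit [NeZero N] in
/-- An element of trace `±2` stabilises some cusp. -/
theorem exists_conj_upper_of_trace_sq (A : SL(2, ℤ))
    (h : (A : Matrix (Fin 2) (Fin 2) ℤ).trace ^ 2 = 4) :
    ∃ δ : SL(2, ℤ), (δ⁻¹ * A * δ) 1 0 = 0 ∧ (δ⁻¹ * A * δ) 0 0 = (δ⁻¹ * A * δ) 1 1 := by
  obtain ⟨ε, hε, htr⟩ : ∃ ε : ℤ, ε * ε = 1 ∧ A 0 0 + A 1 1 = 2 * ε := by
    have h' : (A 0 0 + A 1 1 - 2) * (A 0 0 + A 1 1 + 2) = 0 := by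
      rw [Matrix.trace_fin_two] at h; linear_combination h
    rcases mul_eq_zero.mp h' with h' | h'
    · exact ⟨1, by norm_num, by linarith⟩
    · exact ⟨-1, by norm_num, by linarith⟩
  have hdet : A 0 0 * A 1 1 - A 0 1 * A 1 0 = 1 := by
    have := A.2; rw [Matrix.det_fin_two] at this; exact this
  by_cases hc : A 1 0 = 0
  · refine ⟨1, by simpa using hc, ?_⟩
    simp only [inv_one, one_mul, mul_one]
    have : (A 0 0 - A 1 1) ^ 2 = 0 := by
      rw [hc] at hdet; linear_combination (A 0 0 + A 1 1 + 2 * ε) * htr - 4 * hdet + 4 * hε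
    linarith [pow_eq_zero_iff (n := 2) (by norm_num) |>.mp this]
  · obtain ⟨x, y, hco, hx, hy⟩ : ∃ x y : ℤ, IsCoprime x y ∧
        (A 0 0 - ε) * x + A 0 1 * y = 0 ∧ A 1 0 * x + (A 1 1 - ε) * y = 0 := by
      obtain ⟨p, q, hg, hp, hq⟩ := Int.exists_gcd_one (m := A 1 1 - ε) (n := -A 1 0)
        (Int.gcd_pos_of_ne_zero_right _ (neg_ne_zero.mpr hc))
      have hgne : (((A 1 1 - ε).gcd (-A 1 0) : ℕ) : ℤ) ≠ 0 := by
        exact_mod_cast (Int.gcd_pos_of_ne_zero_right (A 1 1 - ε) (neg_ne_zero.mpr hc)).ne'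
      refine ⟨p, q, Int.isCoprime_iff_gcd_eq_one.mpr hg, ?_, ?_⟩
      · refine (mul_eq_zero.mp ?_).resolve_right hgne
        linear_combination -(A 0 0 - ε) * hp - A 0 1 * hq + hdet - ε * htr - hε
      · refine (mul_eq_zero.mp ?_).resolve_right hgne
        linear_combination -(A 1 0) * hp - (A 1 1 - ε) * hq
    obtain ⟨s, t, hst⟩ := hco
    let δ : SL(2, ℤ) := ⟨!![x, -t; y, s], by
      rw [Matrix.det_fin_two_of]; linear_combination hst⟩
    refine ⟨δ, ?_, ?_⟩ <;>
      simp [δ, Matrix.mul_apply, Matrix.vecMul, dotProduct, Fin.sum_univ_two,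
        Matrix.adjugate_fin_two,
        Matrix.SpecialLinearGroup.coe_inv]
    · linear_combination -y * hx + x * hy
    · linear_combination 2 * s * hx + 2 * t * hy + (2 * ε - A 0 0 - A 1 1) * hst - htr

theorem periodMap_isParabolicHom (f : CuspForm (Gamma0 N) 2) :
    IsParabolicHom (Gamma0 N) (periodMap N f) := by
  intro γ hγ
  obtain ⟨δ, h10, h00⟩ := exists_conj_upper_of_trace_sq (γ : SL(2, ℤ)) hγ
  set U : SL(2, ℤ) := δ⁻¹ * (γ : SL(2, ℤ)) * δ with hU
  have hto : Tendsto (fun w : ℍ => U • w) atImInfty atImInfty := by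
    refine tendsto_smul_atImInfty (g := (U : GL (Fin 2) ℝ)) ?_
    simp [h10]
  obtain ⟨L, hL⟩ := tendsto_primitive_smul f δ
  have h1 : Tendsto (fun w : ℍ => primitive f (δ • (U • w)) - primitive f (δ • w))
      atImInfty (𝓝 0) := by
    have := (hL.comp hto).sub hL
    rwa [sub_self] at this
  have h2 : Tendsto (fun w : ℍ => primitive f (δ • (U • w)) - primitive f (δ • w))
      atImInfty (𝓝 (periodMap N f (Additive.ofMul γ))) := by
    refine tendsto_const_nhds.congr fun w => ?_
    rw [periodMap_eq_sub f (isPrimitive_primitive f) γ (δ • w), hU, ← mul_smul, ← mul_smul]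
    congr 2
    group
  exact tendsto_nhds_unique h2 h1

theorem periodMap_mem_parabolicHoms (f : CuspForm (Gamma0 N) 2) :
    periodMap N f ∈ parabolicHoms ℂ (Gamma0 N) ℂ :=
  periodMap_isParabolicHom f

/-- Periods are parabolic homomorphisms. -/
theorem range_periodHomPair_le :
    LinearMap.range (periodHomPair N) ≤ parabolicHoms ℂ (Gamma0 N) ℂ := by
  rintro φ ⟨⟨f, g⟩, rfl⟩
  rw [periodHomPair_apply]
  exact add_mem
    (add_mem (periodMap_mem_parabolicHoms f)
      (charInvolution_mem_parabolicHoms N ℂ ℂ (periodMap_mem_parabolicHoms f)))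
    (sub_mem (periodMap_mem_parabolicHoms g)
      (charInvolution_mem_parabolicHoms N ℂ ℂ (periodMap_mem_parabolicHoms g)))

end Fermat.Agent.Periods
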