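import Mathlib.Analysis.Complex.AbsMax
import Mathlib.NumberTheory.Modular
import Fermat.Agent.Periods.Primitive

/-!
# Maximum principle: a primitive with purely imaginary periods is constant

This is the analytic core of the injectivity of the period map.
-/

noncomputable section

open UpperHalfPlane hiding I
open Filter Topology Complex Function Metric
open scoped MatrixGroups ModularForm Manifold Real

namespace Fermat.Agent.Periods

local notation "𝕢" => Function.Periodic.qParam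

/-- Let `Γ` be a finite index subgroup containing all conjugates of `T ^ N`, and `H` a holomorphic
function whose increments under `Γ` are purely imaginary constants and which has a limit at every
cusp. Then `H` is constant. -/
theorem eq_const_of_re_period_eq_zero {N : ℕ} [NeZero N] (Γ : Subgroup SL(2, ℤ)) [Γ.FiniteIndex]
    (hT : ∀ δ : SL(2, ℤ), δ * ModularGroup.T ^ (N : ℤ) * δ⁻¹ ∈ Γ)
    {H : ℍ → ℂ} (hH : MDiff H)
    (hper : ∀ γ ∈ Γ, ∃ c : ℂ, c.re = 0 ∧ ∀ z : ℍ, H (γ • z) = H z + c)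
    (hlim : ∀ δ : SL(2, ℤ), ∃ L : ℂ, Tendsto (fun w : ℍ => H (δ • w)) atImInfty (𝓝 L))
    (z w : ℍ) : H z = H w := by
  have hN : (0 : ℝ) < N := Nat.cast_pos.mpr (NeZero.pos N)
  set Hd : SL(2, ℤ) → ℍ → ℂ := fun δ w => H (δ • w) with hHd
  have hperiod : ∀ δ, Periodic (Hd δ ∘ ofComplex) (N : ℝ) := by
    intro δ
    obtain ⟨c, -, hc⟩ := hper _ (hT δ)
    have hstep : ∀ w : ℍ, Hd δ ((N : ℝ) +ᵥ w) = Hd δ w + c := by
      intro w
      have := hc (δ • w)
      rwa [← mul_smul, inv_mul_cancel_right, mul_smul, modular_T_zpow_smul, Int.cast_natCast]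
        at this
    have hc0 : c = 0 := by
      obtain ⟨L, hL⟩ := hlim δ
      have hto : Tendsto (fun w : ℍ => (N : ℝ) +ᵥ w) atImInfty atImInfty := by
        simp only [atImInfty, tendsto_comap_iff, Function.comp_def, vadd_im]
        exact tendsto_comap
      have h1 : Tendsto (fun w : ℍ => Hd δ ((N : ℝ) +ᵥ w)) atImInfty (𝓝 (L + c)) :=
        (hL.add_const c).congr fun w => (hstep w).symm
      have h2 := tendsto_nhds_unique h1 (hL.comp hto)
      linear_combination h2
    refine MF.periodic_comp_ofComplex fun w => ?_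
    rw [hstep w, hc0, add_zero]
  have hhol : ∀ δ : SL(2, ℤ), MDiff (Hd δ) := fun δ =>
    hH.comp (mdifferentiable_smul (g := (δ : GL (Fin 2) ℝ)) (by simp))
  have hbdd : ∀ δ : SL(2, ℤ), IsBoundedAtImInfty (Hd δ) := fun δ => by
    obtain ⟨L, hL⟩ := hlim δ
    exact hL.isBigO_one ℝ
  set g : SL(2, ℤ) → ℂ → ℂ := fun δ q => UpperHalfPlane.cuspFunction N (Hd δ) q with hg
  set k : SL(2, ℤ) → ℂ → ℂ := fun δ q => Complex.exp (g δ q) with hk
  have hgd : ∀ δ, DifferentiableOn ℂ (g δ) (ball 0 1) := fun δ =>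
    differentiableOn_cuspFunction_ball hN (hperiod δ) (hhol δ) (hbdd δ)
  have hkd : ∀ δ, DifferentiableOn ℂ (k δ) (ball 0 1) := fun δ => (hgd δ).cexp
  have hkq : ∀ δ (w : ℍ), k δ (𝕢 N w) = Complex.exp (H (δ • w)) := fun δ w => by
    show Complex.exp (UpperHalfPlane.cuspFunction N (Hd δ) (𝕢 N w)) = _
    rw [eq_cuspFunction w hN.ne' (hperiod δ)]
  set r : ℝ := Real.exp (-π / N) with hr
  have hr1 : r < 1 := by
    rw [hr, Real.exp_lt_one_iff]; exact div_neg_of_neg_of_pos (neg_lt_zero.mpr Real.pi_pos) hN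
  have hr0 : (0 : ℝ) ≤ r := (Real.exp_pos _).le
  let ι := SL(2, ℤ) ⧸ Γ
  let rep : ι → SL(2, ℤ) := fun i => i.out⁻¹
  have hmax : ∀ i : ι, ∃ q ∈ closedBall (0 : ℂ) r,
      IsMaxOn (fun x => ‖k (rep i) x‖) (closedBall (0 : ℂ) r) q := fun i =>
    (isCompact_closedBall (0 : ℂ) r).exists_isMaxOn (nonempty_closedBall.mpr hr0)
      ((hkd (rep i)).continuousOn.mono (closedBall_subset_ball hr1)).norm
  choose qm hqm hqmax using hmax
  obtain ⟨i₀, hi₀⟩ := Finite.exists_max fun i : ι => ‖k (rep i) (qm i)‖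
  have hball : qm i₀ ∈ ball (0 : ℂ) 1 := closedBall_subset_ball hr1 (hqm i₀)
  have hle : ∀ z : ℍ, ‖Complex.exp (H z)‖ ≤ ‖k (rep i₀) (qm i₀)‖ := by
    intro z
    obtain ⟨σ, hσ⟩ := ModularGroup.exists_one_half_le_im_smul z
    set i : ι := QuotientGroup.mk σ with hi
    have hmem : σ⁻¹ * i.out ∈ Γ := by
      rw [← QuotientGroup.eq, hi, QuotientGroup.out_eq']
    obtain ⟨c, hc0, hc⟩ := hper _ hmem
    have hz : z = (σ⁻¹ * i.out) • (rep i • (σ • z)) := by
      rw [← mul_smul, ← mul_smul]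
      simp [rep, mul_assoc]
    rw [hz, hc, Complex.exp_add, norm_mul, Complex.norm_exp c, hc0, Real.exp_zero, mul_one,
      ← hkq (rep i) (σ • z)]
    refine le_trans ((isMaxOn_iff.mp (hqmax i)) _ ?_) (hi₀ i)
    rw [mem_closedBall_zero_iff, Periodic.norm_qParam, hr, Real.exp_le_exp,
      div_le_div_iff_of_pos_right hN, coe_im]
    nlinarith [Real.pi_pos]
  have hconst : Set.EqOn (k (rep i₀)) (Function.const ℂ (k (rep i₀) (qm i₀))) (ball 0 1) := by
    refine Complex.eqOn_of_isPreconnected_of_isMaxOn_norm (convex_ball 0 1).isPreconnected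
      isOpen_ball (hkd _) hball (isMaxOn_iff.mpr fun q hq => ?_)
    simp only [Function.comp_apply]
    rcases eq_or_ne q 0 with rfl | hq0
    · exact (isMaxOn_iff.mp (hqmax i₀)) _ (mem_closedBall_self hr0)
    · set w : ℍ := ⟨_, Periodic.im_invQParam_pos_of_norm_lt_one hN (mem_ball_zero_iff.mp hq) hq0⟩
      have hw : 𝕢 N (w : ℂ) = q := Periodic.qParam_right_inv hN.ne' hq0
      rw [← hw, hkq]
      exact hle _
  have hgc : ∀ q ∈ ball (0 : ℂ) 1, deriv (g (rep i₀)) q = 0 := by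
    intro q hq
    have h1 : k (rep i₀) =ᶠ[𝓝 q] Function.const ℂ (k (rep i₀) (qm i₀)) :=
      hconst.eventuallyEq_of_mem (isOpen_ball.mem_nhds hq)
    have hgq : DifferentiableAt ℂ (g (rep i₀)) q :=
      (hgd _).differentiableAt (isOpen_ball.mem_nhds hq)
    have h2 : deriv (k (rep i₀)) q = k (rep i₀) q * deriv (g (rep i₀)) q :=
      hgq.hasDerivAt.cexp.deriv
    rw [h1.deriv_eq] at h2
    have h3 : deriv (Function.const ℂ (k (rep i₀) (qm i₀))) q = 0 := deriv_const q _
    rw [h3] at h2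
    exact (mul_eq_zero.mp h2.symm).resolve_left (Complex.exp_ne_zero _)
  have key : ∀ z : ℍ, H z = g (rep i₀) 0 := by
    intro z
    have h1 := isOpen_ball.is_const_of_deriv_eq_zero (convex_ball (0 : ℂ) 1).isPreconnected
      (hgd (rep i₀)) hgc (x := 𝕢 N ((rep i₀)⁻¹ • z : ℍ)) (y := 0)
      (mem_ball_zero_iff.mpr (Periodic.norm_qParam_lt_one hN ((rep i₀)⁻¹ • z).im_pos))
      (mem_ball_self one_pos)
    rw [← h1]
    show H z = UpperHalfPlane.cuspFunction N (Hd (rep i₀)) _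
    rw [eq_cuspFunction _ hN.ne' (hperiod (rep i₀))]
    simp [hHd]
  rw [key z, key w]

end Fermat.Agent.Periods
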