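import Mathlib.Analysis.Calculus.Deriv.Star
import Fermat.Agent.Periods.MaxPrinciple
import Fermat.Agent.Periods.PeriodMap

/-!
# Injectivity of the Eichler–Shimura period map

A pair of cusp forms with vanishing combined periods has constant real primitive, by the maximum
principle, and hence vanishes.
-/

noncomputable section

open UpperHalfPlane hiding I
open Filter Topology Complex Function CongruenceSubgroup ModularCurve ModularCurve.Period
open scoped MatrixGroups ModularForm Manifold ComplexConjugate

namespace Fermat.Agent.Periods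

variable {N : ℕ}

/-- `J` intertwines `γ` and `jConjSL γ`. -/
theorem J_smul_SL (γ : SL(2, ℤ)) (z : ℍ) :
    UpperHalfPlane.J • (γ • z) = jConjSL γ • (UpperHalfPlane.J • z) := by
  rw [ModularGroup.sl_moeb, ModularGroup.sl_moeb, ← mul_smul, ← mul_smul]
  congr 1
  apply Units.ext
  ext i j
  fin_cases i <;> fin_cases j <;> simp [Matrix.mul_apply, Fin.sum_univ_two, jConjMat]

theorem IsPrimitive.conj_J {f F : ℍ → ℂ} (hF : IsPrimitive f F) :
    IsPrimitive (fun z => -conj (f (UpperHalfPlane.J • z)))
      (fun z => conj (F (UpperHalfPlane.J • z))) := by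
  intro τ
  set w : ℍ := UpperHalfPlane.J • τ with hw
  have hwc : (w : ℂ) = -conj (τ : ℂ) := coe_J_smul τ
  have h1 : HasDerivAt ((F ∘ ofComplex) ∘ Neg.neg) (f w * -1) (conj (τ : ℂ)) := by
    have h0 : HasDerivAt (F ∘ ofComplex) (f w) (-conj (τ : ℂ)) := by rw [← hwc]; exact hF w
    exact h0.comp _ (hasDerivAt_neg _)
  have h2 := h1.conj_conj
  rw [Complex.conj_conj, mul_neg_one, map_neg] at h2
  refine h2.congr_of_eventuallyEq ?_
  filter_upwards [eventually_im_pos τ] with z hz
  have h3 : (-conj z) = ((UpperHalfPlane.J • (⟨z, hz⟩ : ℍ) : ℍ) : ℂ) := (coe_J_smul ⟨z, hz⟩).symm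
  simp only [Function.comp_apply, h3, ofComplex_apply, ofComplex_apply_of_im_pos hz]

theorem tendsto_J_atImInfty : Tendsto (fun z : ℍ => UpperHalfPlane.J • z) atImInfty atImInfty :=
  tendsto_smul_atImInfty (g := UpperHalfPlane.J) (by simp [UpperHalfPlane.J])

variable [NeZero N]

/-- If the periods of `u` plus the twisted periods of `v` have vanishing real part,
then `u(z) = conj (v (-conj z))`. -/
theorem eq_conj_of_re_periods (u v : CuspForm (Gamma0 N) 2)
    (h : ∀ γ : Gamma0 N, (periodMap N u (Additive.ofMul γ)).re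
      + (periodMap N v (Additive.ofMul (jConjGamma0 N γ))).re = 0) (z : ℍ) :
    u z = conj (v (UpperHalfPlane.J • z)) := by
  set H : ℍ → ℂ := primitive u + fun z => conj (primitive v (UpperHalfPlane.J • z)) with hH
  have hd : IsPrimitive (⇑u + fun z => -conj (v (UpperHalfPlane.J • z))) H :=
    (isPrimitive_primitive u).add (isPrimitive_primitive v).conj_J
  have hconst : ∀ z w, H z = H w := by
    refine eq_const_of_re_period_eq_zero (N := N) (Gamma0 N)
      (fun δ => conj_T_zpow_mem_Gamma0 δ dvd_rfl) hd.mdifferentiable ?_ ?_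
    · intro γ hγ
      refine ⟨periodMap N u (Additive.ofMul ⟨γ, hγ⟩)
        + conj (periodMap N v (Additive.ofMul (jConjGamma0 N ⟨γ, hγ⟩))), ?_, fun z => ?_⟩
      · rw [add_re, conj_re]; exact h ⟨γ, hγ⟩
      · rw [periodMap_eq_sub u (isPrimitive_primitive u) ⟨γ, hγ⟩ z,
          periodMap_eq_sub v (isPrimitive_primitive v) (jConjGamma0 N ⟨γ, hγ⟩)
            (UpperHalfPlane.J • z)]
        simp only [hH, Pi.add_apply, jConjGamma0_coe, ← J_smul_SL, map_sub]
        ring
    · intro δ
      obtain ⟨L, hL⟩ := tendsto_primitive_smul u δ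
      obtain ⟨L', hL'⟩ := tendsto_primitive_smul v (jConjSL δ)
      refine ⟨L + conj L', ?_⟩
      have h2 := (Complex.continuous_conj.tendsto L').comp (hL'.comp tendsto_J_atImInfty)
      exact (hL.add h2).congr fun w => by
        simp only [hH, Pi.add_apply, Function.comp_apply, J_smul_SL]
  have h0 : HasDerivAt (H ∘ ofComplex) 0 (z : ℂ) := by
    have : H ∘ ofComplex = fun _ => H z := funext fun x => hconst _ _
    rw [this]
    exact hasDerivAt_const _ _
  have h1 := (hd z).unique h0
  simp only [Pi.add_apply] at h1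
  linear_combination h1

theorem eq_zero_of_periods (u v : CuspForm (Gamma0 N) 2)
    (h : ∀ γ : Gamma0 N, periodMap N u (Additive.ofMul γ)
      + periodMap N v (Additive.ofMul (jConjGamma0 N γ)) = 0) : u = 0 ∧ v = 0 := by
  have h1 := eq_conj_of_re_periods u v fun γ => by rw [← add_re, h γ, zero_re]
  have h2 : ∀ z, u z = -conj (v (UpperHalfPlane.J • z)) := by
    intro z
    have := eq_conj_of_re_periods (I • u) (I • v) (fun γ => by
      rw [periodMap_smul, periodMap_smul, AddMonoidHom.smul_apply, AddMonoidHom.smul_apply,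
        ← add_re, ← smul_add, h γ, smul_zero, zero_re]) z
    simp only [IsSMulApply.smul_apply, smul_eq_mul, map_mul, conj_I] at this
    refine mul_left_cancel₀ I_ne_zero ?_
    linear_combination this
  have hu : ∀ z, u z = 0 := fun z => by linear_combination (h1 z + h2 z) / 2
  refine ⟨CuspForm.ext fun z => by simpa using hu z, CuspForm.ext fun z => ?_⟩
  have := (h1 (UpperHalfPlane.J • z)).symm.trans (hu _)
  rw [← mul_smul, ← sq, J_sq, one_smul] at this
  simpa using this

/-- The combined period map of pairs of cusp forms is injective. -/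
theorem periodHomPair_injective : Function.Injective (periodHomPair N) := by
  refine (injective_iff_map_eq_zero _).mpr ?_
  rintro ⟨f, g⟩ hfg
  have h : ∀ γ : Gamma0 N, periodMap N (f + g) (Additive.ofMul γ)
      + periodMap N (f - g) (Additive.ofMul (jConjGamma0 N γ)) = 0 := by
    intro γ
    have h0 := DFunLike.congr_fun hfg (Additive.ofMul γ)
    rw [periodHomPair_apply] at h0
    simp only [AddMonoidHom.add_apply, AddMonoidHom.sub_apply, charInvolution_apply,
      AddMonoidHom.zero_apply, toMul_ofMul] at h0
    rw [periodMap_add, periodMap_sub, AddMonoidHom.add_apply, AddMonoidHom.sub_apply]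
    linear_combination h0
  obtain ⟨h1, h2⟩ := eq_zero_of_periods _ _ h
  have hfg' : f = g := sub_eq_zero.mp h2
  subst hfg'
  rw [← two_smul ℂ, smul_eq_zero] at h1
  simp [h1.resolve_left two_ne_zero]

/-- The period map is injective. -/
theorem periodMap_injective : Function.Injective (periodMap N) := by
  intro f g h
  refine sub_eq_zero.mp (eq_zero_of_periods (f - g) 0 fun γ => ?_).1
  rw [periodMap_sub, h, sub_self, periodMap_zero]; simp

/-- A cusp form whose periods are purely imaginary vanishes. -/
theorem eq_zero_of_re_periodMap (f : CuspForm (Gamma0 N) 2)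
    (h : ∀ γ : Gamma0 N, (periodMap N f (Additive.ofMul γ)).re = 0) : f = 0 := by
  refine CuspForm.ext fun z => ?_
  simpa using eq_conj_of_re_periods f 0 (fun γ => by rw [h γ, periodMap_zero]; simp) z

end Fermat.Agent.Periods
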