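import Mathlib.GroupTheory.Schreier
import Mathlib.LinearAlgebra.FiniteDimensional.Lemmas
import Mathlib.LinearAlgebra.Matrix.FixedDetMatrices
import Fermat.Agent.Grp.ClAb
import Fermat.Agent.Periods.Injective

/-!
# Eichler–Shimura from a dimension count

Injectivity makes `S₂(Γ₀(N))` finite dimensional; the period map is bijective onto the parabolic
homomorphisms as soon as the dimensions agree.
-/

noncomputable section

open Complex CongruenceSubgroup ModularCurve ModularCurve.Period
open scoped MatrixGroups

namespace Fermat.Agent.Periods

theorem subgroup_fg_of_finiteIndex (Γ : Subgroup SL(2, ℤ)) [Γ.FiniteIndex] : Group.FG Γ :=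
  haveI := Grp.fg_SL2Z
  Subgroup.fg_of_index_ne_zero Γ

/-- Homomorphisms from a finitely generated group to a field form a finite dimensional space. -/
theorem finiteDimensional_hom (G : Type*) [Group G] [Group.FG G] (k : Type*) [Field k] :
    FiniteDimensional k (Additive G →+ k) := by
  obtain ⟨S, hS⟩ := (Group.FG.out : (⊤ : Subgroup G).FG)
  let e : (Additive G →+ k) →ₗ[k] (↥S → k) :=
    { toFun := fun φ s => φ (Additive.ofMul (s : G))
      map_add' := fun _ _ => rfl
      map_smul' := fun _ _ => rfl }
  refine FiniteDimensional.of_injective e fun φ ψ h => ?_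
  refine AddMonoidHom.ext fun x => ?_
  obtain ⟨x, rfl⟩ := Additive.ofMul.surjective x
  have hx : x ∈ Subgroup.closure (S : Set G) := hS ▸ Subgroup.mem_top x
  induction hx using Subgroup.closure_induction with
  | mem y hy => exact congrFun h ⟨y, hy⟩
  | one => simp
  | mul a b _ _ ha hb => rw [ofMul_mul, map_add, map_add, ha, hb]
  | inv a _ ha => rw [ofMul_inv, map_neg, map_neg, ha]

variable (N : ℕ) [NeZero N]

instance finiteDimensional_homGamma0 : FiniteDimensional ℂ (Additive (Gamma0 N) →+ ℂ) :=
  haveI := subgroup_fg_of_finiteIndex (Gamma0 N)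
  finiteDimensional_hom _ ℂ

/-- The space of weight two cusp forms is finite dimensional (from Eichler–Shimura injectivity). -/
theorem finiteDimensional_cuspForm_two : FiniteDimensional ℂ (CuspForm (Gamma0 N) 2) :=
  FiniteDimensional.of_injective (periodMapLin N) periodMap_injective

theorem two_mul_finrank_le :
    2 * Module.finrank ℂ (CuspForm (Gamma0 N) 2)
      ≤ Module.finrank ℂ (parabolicHoms ℂ (Gamma0 N) ℂ) := by
  have := finiteDimensional_cuspForm_two N
  have h1 := LinearMap.finrank_range_of_inj (periodHomPair_injective (N := N))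
  have h2 := Submodule.finrank_mono (range_periodHomPair_le (N := N))
  rw [h1, Module.finrank_prod] at h2
  omega

/-- The Eichler–Shimura isomorphism given the dimension count. -/
theorem eichlerShimura_of_finrank_le
    (h : Module.finrank ℂ (parabolicHoms ℂ (Gamma0 N) ℂ)
      ≤ 2 * Module.finrank ℂ (CuspForm (Gamma0 N) 2)) :
    Function.Injective (periodHomPair N)
      ∧ LinearMap.range (periodHomPair N) = parabolicHoms ℂ (Gamma0 N) ℂ := by
  have := finiteDimensional_cuspForm_two N
  refine ⟨periodHomPair_injective, Submodule.eq_of_le_of_finrank_le range_periodHomPair_le ?_⟩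
  rw [LinearMap.finrank_range_of_inj (periodHomPair_injective (N := N)), Module.finrank_prod]
  omega

end Fermat.Agent.Periods
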