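import Fermat.Prelude.Def_ModularCurve_GenusNumerics
import Fermat.Agent.Periods.Range

/-!
# Eichler–Shimura and `dim S₂ = g`, from `dim S₂ ≥ g` and `dim parabolicHoms = 2g`

Injectivity of the period map gives the opposite inequality, so it is onto.
-/

noncomputable section

open CongruenceSubgroup ModularCurve ModularCurve.Period
open scoped MatrixGroups

namespace Fermat.Agent.Periods

variable (N : ℕ) [NeZero N] {g : ℕ}

/-- The Eichler–Shimura isomorphism from the lower bound `g ≤ dim S₂` and `dim parabolicHoms = 2g`.
-/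
theorem eichlerShimura_of_genus_le (hg : (g : ℚ) = genusFormula N)
    (hhom : Module.finrank ℂ (parabolicHoms ℂ (Gamma0 N) ℂ) = 2 * g)
    (hle : genusFormula N ≤ (Module.finrank ℂ (CuspForm (Gamma0 N) 2) : ℚ)) :
    Function.Injective (periodHomPair N)
      ∧ LinearMap.range (periodHomPair N) = parabolicHoms ℂ (Gamma0 N) ℂ := by
  refine eichlerShimura_of_finrank_le N ?_
  rw [hhom]
  rw [← hg] at hle
  have h' : g ≤ Module.finrank ℂ (CuspForm (Gamma0 N) 2) := by exact_mod_cast hle
  omega

end Fermat.Agent.Periods
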