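import Fermat.Agent.Grp.Interface
import Fermat.Agent.Periods.OfGenus

/-!
# Eichler–Shimura from the lower bound `g ≤ dim S₂`

The group theoretic count `dim parabolicHoms = 2g` turns the lower bound into the dimension
formula for `S₂(Γ₀(N))` and the Eichler–Shimura isomorphism.
-/

noncomputable section

open CongruenceSubgroup ModularCurve ModularCurve.Period
open scoped MatrixGroups

namespace Fermat.Agent.Periods

variable (N : ℕ) [NeZero N]

/-- The parabolic homomorphisms have dimension `2g`, with `g` given by the genus formula. -/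
theorem exists_finrank_parabolicHoms :
    ∃ g : ℕ, (g : ℚ) = genusFormula N ∧
      Module.finrank ℂ (parabolicHoms ℂ (Gamma0 N) ℂ) = 2 * g := by
  obtain ⟨g, hg, hc⟩ := Grp.exists_genusFormula_eq N
  exact ⟨g, hg, by rw [(Grp.finrank_parabolicHoms_complex N).1, hc]⟩

/-- `dim S₂ ≤ g`. -/
theorem finrank_le_genusFormula :
    (Module.finrank ℂ (CuspForm (Gamma0 N) 2) : ℚ) ≤ genusFormula N := by
  obtain ⟨g, hg, hc⟩ := exists_finrank_parabolicHoms N
  have h := two_mul_finrank_le N
  rw [hc] at h
  rw [← hg]
  exact_mod_cast (by omega : Module.finrank ℂ (CuspForm (Gamma0 N) 2) ≤ g)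

/-- The dimension formula for `S₂(Γ₀(N))` from the lower bound. -/
theorem finrank_eq_genusFormula_of_le
    (hle : genusFormula N ≤ (Module.finrank ℂ (CuspForm (Gamma0 N) 2) : ℚ)) :
    (Module.finrank ℂ (CuspForm (Gamma0 N) 2) : ℚ) = genusFormula N :=
  le_antisymm (finrank_le_genusFormula N) hle

/-- The Eichler–Shimura isomorphism from the lower bound. -/
theorem eichlerShimura_of_le
    (hle : genusFormula N ≤ (Module.finrank ℂ (CuspForm (Gamma0 N) 2) : ℚ)) :
    Function.Injective (periodHomPair N)
      ∧ LinearMap.range (periodHomPair N) = parabolicHoms ℂ (Gamma0 N) ℂ := by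
  obtain ⟨g, hg, hc⟩ := exists_finrank_parabolicHoms N
  exact eichlerShimura_of_genus_le N hg hc hle

end Fermat.Agent.Periods
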